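/-
S28 library (helper8), brick V, step (B2): an element `g` of `ℚ((q))` which is a root of a
monic polynomial over the reduction ring and satisfies a primitive relation
`b(j) g = ∑ aᵢ(j) xᵢ` has `b mod ℓ ≠ 0`, hence lies in the reduction ring.
-/
import Mathlib
import Fermat.Agent.S28lib.Hedge8.RedBasics

set_option autoImplicit false

noncomputable section

namespace Fermat.Agent.S28lib.Hedge8

open ModularCurve HahnSeries Polynomial Fermat.Agent.S28lib Fermat.Agent.S28lib.Red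

variable (ℓ : ℕ) [hℓ : Fact ℓ.Prime]
variable {n : ℕ} {x : Fin n → MvPolynomial ℕ ℤ}

theorem map_ne_zero_of_monic_root
    (hind : ∀ P : Fin n → Polynomial (ZMod ℓ),
      ∑ i, evalJ (ZMod ℓ) (jqModC (ZMod ℓ)) (P i) * evalDiv (ZMod ℓ) (x i) = 0 → ∀ i, P i = 0)
    {g : LaurentSeries ℚ} (q : (redRing ℓ)[X]) (hq : q.Monic)
    (hroot : q.eval₂ (redRing ℓ).subtype g = 0) {b : ℤ[X]} {a : Fin n → ℤ[X]}
    (hprim : b.map (Int.castRingHom (ZMod ℓ)) ≠ 0 ∨
      ∃ i, (a i).map (Int.castRingHom (ZMod ℓ)) ≠ 0)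
    (hrel : evalJ ℚ (jqModC ℚ) (b.map (Int.castRingHom ℚ)) * g =
      ∑ i, evalJ ℚ (jqModC ℚ) ((a i).map (Int.castRingHom ℚ)) * evalDiv ℚ (x i)) :
    b.map (Int.castRingHom (ZMod ℓ)) ≠ 0 := by
  intro hb
  set B : redRing ℓ := ⟨evalJ ℚ (jqModC ℚ) (b.map (Int.castRingHom ℚ)), evalJ_map_mem_redRing ℓ b⟩
    with hB
  set R : redRing ℓ := ⟨_, relSum_mem_redRing ℓ x a⟩ with hR
  have hBg : (redRing ℓ).subtype B * g = (redRing ℓ).subtype R := hrel
  have h1 := scaleRoots_eval₂_mul (p := q) (redRing ℓ).subtype g B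
  rw [hroot, mul_zero, hBg, eval₂_at_apply] at h1
  have h2 : (q.scaleRoots B).eval R = 0 := by
    apply Subtype.val_injective
    exact h1
  have hB0 : redHom ℓ B = 0 := by
    rw [hB, redHom_evalJ_map, hb, map_zero]
  have h3 := congrArg (redHom ℓ) h2
  rw [map_zero, ← eval_map_apply, map_scaleRoots _ _ _ (by
    rw [hq.leadingCoeff, map_one]; exact one_ne_zero), hB0, scaleRoots_zero,
    (hq.map (redHom ℓ)).leadingCoeff, one_smul, eval_pow, eval_X] at h3
  have h4 : redHom ℓ R = 0 := eq_zero_of_pow_eq_zero h3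
  have h5 := map_eq_zero_of_redHom_relSum_eq_zero ℓ hind h4
  rcases hprim with h | ⟨i, hi⟩
  · exact h hb
  · exact hi (h5 i)

end Fermat.Agent.S28lib.Hedge8
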