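/-
S28 library (helper8), brick V: every element of every chart algebra lies in the reduction
ring (`hmem`).
-/
import Mathlib
import Fermat.Agent.S28lib.Hedge8.B2
import Fermat.Agent.S28lib.Representation

set_option autoImplicit false

noncomputable section

namespace Fermat.Agent.S28lib.Hedge8

open ModularCurve ModularCurve.IgusaScheme HahnSeries Polynomial Fermat.Agent.S28lib
  Fermat.Agent.S28lib.Red

variable (N : ℕ) [NeZero N] (ℓ : ℕ) [hℓ : Fact ℓ.Prime]

set_option quotPrecheck false in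
local notation "ℤℓ" => ↥(GaloisRep.ratLocalizedAt ℓ)

set_option quotPrecheck false in
local notation "FF" => ↥(modularFunctionFieldFull N)

/-- the inclusion `ℤ_(ℓ)[S] → redRing`. -/
def toRed {S : Set FF} (hS : S ⊆ {jFull N, (jFull N)⁻¹}) :
    ↥(Algebra.adjoin ℤℓ S) →+* redRing ℓ :=
  RingHom.codRestrict
    (((modularFunctionFieldFull N).val : FF →+* LaurentSeries ℚ).comp
      (Algebra.adjoin ℤℓ S).val.toRingHom) (redRing ℓ)
    (fun c => coe_mem_redRing_of_mem_adjoin N ℓ hS c.2)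

variable {n : ℕ} (x : Fin n → MvPolynomial ℕ ℤ)

theorem coe_mem_redRing_of_mem_chartAlg
    (hx : ∀ i, ∀ d ∈ (x i).vars, d ∣ N)
    (hind : ∀ P : Fin n → Polynomial (ZMod ℓ),
      ∑ i, evalJ (ZMod ℓ) (jqModC (ZMod ℓ)) (P i) * evalDiv (ZMod ℓ) (x i) = 0 → ∀ i, P i = 0)
    (hD : ∀ y : Fin (n + 1) → LaurentSeries ℚ, (∀ i, y i ∈ modularFunctionFieldFull N) →
      ∃ P : Fin (n + 1) → Polynomial ℚ, P ≠ 0 ∧ ∑ i, evalJ ℚ (jqModC ℚ) (P i) * y i = 0)
    {S : Set FF} (hS : S ⊆ {jFull N, (jFull N)⁻¹}) {y : FF} (hy : y ∈ chartAlg N ℓ S) :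
    ((y : FF) : LaurentSeries ℚ) ∈ redRing ℓ := by
  obtain ⟨p, hp, hroot⟩ := (mem_chartAlg_iff N ℓ).mp hy
  obtain ⟨b, a, -, hprim, hrel⟩ := exists_int_relation_of_mem_full ℓ N x hx hind hD y.2
  have hb := map_ne_zero_of_monic_root ℓ hind (p.map (toRed N ℓ hS)) (hp.map _) ?_ hprim hrel
  · refine mem_redRing_of_mul_eq ℓ hb (a := intComb x a) ?_
    rw [hrel, coeffMap_intComb]
  · rw [eval₂_map]
    have hc : (redRing ℓ).subtype.comp (toRed N ℓ hS) =
        ((modularFunctionFieldFull N).val : FF →+* LaurentSeries ℚ).comp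
          (algebraMap ↥(Algebra.adjoin ℤℓ S) FF) := rfl
    rw [hc]
    have h := hom_eval₂ p (algebraMap ↥(Algebra.adjoin ℤℓ S) FF)
      ((modularFunctionFieldFull N).val : FF →+* LaurentSeries ℚ) y
    rw [hroot, map_zero] at h
    exact h.symm

end Fermat.Agent.S28lib.Hedge8
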