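/-
S28 library (helper8), brick V closed: `exists_phi` = `brickRed` of `Assembly.isIntegral_of_bricks`
verbatim, from helper4's `exists_phi_of_memFin` and `hmemFin` (`coe_mem_redRing_of_mem_chartAlg`).
-/
import Mathlib
import Fermat.Agent.S28lib.Hedge8.Mem
import Fermat.Agent.S28lib.RedAssembly

set_option autoImplicit false

noncomputable section

namespace Fermat.Agent.S28lib.Hedge8

open ModularCurve ModularCurve.IgusaScheme HahnSeries Polynomial Fermat.Agent.S28lib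
  Fermat.Agent.S28lib.Red

/-- **brick V.** -/
theorem exists_phi (N : ℕ) [NeZero N] (ℓ : ℕ) [Fact ℓ.Prime] {n : ℕ}
    (x : Fin n → MvPolynomial ℕ ℤ) (hx : ∀ i, ∀ d ∈ (x i).vars, d ∣ N)
    (hind : ∀ P : Fin n → Polynomial (ZMod ℓ),
      ∑ i, evalJ (ZMod ℓ) (jqModC (ZMod ℓ)) (P i) * evalDiv (ZMod ℓ) (x i) = 0 → ∀ i, P i = 0)
    (hD : ∀ y : Fin (n + 1) → LaurentSeries ℚ, (∀ i, y i ∈ modularFunctionFieldFull N) →
      ∃ P : Fin (n + 1) → Polynomial ℚ, P ≠ 0 ∧ ∑ i, evalJ ℚ (jqModC ℚ) (P i) * y i = 0)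
    (hint : ∀ d, d ∣ N → IsIntegral (Algebra.adjoin ℤ {jqModC ℚ}) (jAt ℚ d))
    (S : Set ↥(modularFunctionFieldFull N)) (hS : S ⊆ {jFull N, (jFull N)⁻¹}) :
    ∃ φ : ↥(chartAlg N ℓ S) →+* LaurentSeries (ZMod ℓ),
      (S = {jFull N} ∨ S = {(jFull N)⁻¹}) →
        RingHom.ker φ = Ideal.span {((ℓ : ℕ) : ↥(chartAlg N ℓ S))} :=
  exists_phi_of_memFin N ℓ x hx hind hD hint
    (fun _ hy => coe_mem_redRing_of_mem_chartAlg N ℓ x hx hind hD
      (S := {jFull N}) (by intro z hz; left; exact hz) hy) S hS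

end Fermat.Agent.S28lib.Hedge8
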